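/-
S18 / wave 4 (helper50): GENERIC branch-point lemmas for the S24 bridge of `exists_setup`.

`BranchJ K j`: the branch data of a function field `F/K` over the `j`-line
(`e = 1` off `{0, 1728}`, `e ∣ 3` over `0`, `e ∣ 2` over `1728`).
If `x ∈ F` satisfies the level 2 relation `j * x = (x + 16)^3` (resp. the level 3 relation
`j * x = (x + 27) * (x + 3)^3`), then `F/K(x)` is unramified outside `{0, -64}` (resp. `{0, -27}`)
at finite distance, and outside `{0, -1/64}` (resp. `{0, -1/27}`) in the chart `x⁻¹`.
-/
import Fermat.Agent.S24.Ord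
import Fermat.Agent.S24.Residue

set_option autoImplicit false

open AlgebraicCurve Polynomial

noncomputable section

namespace Fermat.Agent.S18.H50

variable {K F : Type*} [Field K] [Field F] [Algebra K F]

/-- Branch data over the `j`-line. -/
structure BranchJ (K : Type*) {F : Type*} [Field K] [Field F] [Algebra K F] (j : F) : Prop where
  gen : ∀ (P : Place K F) (c : K), c ≠ 0 → c ≠ 1728 →
    0 < P.ord (j - algebraMap K F c) → P.ord (j - algebraMap K F c) = 1
  zero : ∀ P : Place K F, 0 < P.ord j → P.ord j = 1 ∨ P.ord j = 3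
  elliptic : ∀ P : Place K F, 0 < P.ord (j - algebraMap K F 1728) →
    P.ord (j - algebraMap K F 1728) = 1 ∨ P.ord (j - algebraMap K F 1728) = 2

theorem mem_of_ord_sub_pos (P : Place K F) {x : F} {c : K}
    (h : 0 < P.ord (x - algebraMap K F c)) : x ∈ P.toValuationSubring := by
  have h1 : x - algebraMap K F c ∈ P.toValuationSubring :=
    (S24.mem_iff_ord_nonneg P (S24.H94.ne_zero_of_ord_pos P h)).mpr h.le
  have := P.toValuationSubring.add_mem _ _ h1 (P.algebraMap_mem' c)
  simpa using this

theorem aeval_mem_place (P : Place K F) {x : F} (hx : x ∈ P.toValuationSubring) (q : K[X]) :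
    aeval x q ∈ P.toValuationSubring := by
  induction q using Polynomial.induction_on' with
  | add p q hp hq => rw [map_add]; exact P.toValuationSubring.add_mem _ _ hp hq
  | monomial n a =>
    rw [aeval_monomial]
    exact P.toValuationSubring.mul_mem _ _ (P.algebraMap_mem' a)
      (P.toValuationSubring.pow_mem hx n)

/-- A polynomial in `x` which does not vanish at the center of `P` is a unit at `P`. -/
theorem ord_aeval_unit (P : Place K F) {x : F} {c : K} (h : 0 < P.ord (x - algebraMap K F c))
    (p : K[X]) (hp : p.eval c ≠ 0) : aeval x p ≠ 0 ∧ P.ord (aeval x p) = 0 := by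
  obtain ⟨q, hq⟩ : (X - C c) ∣ p - C (p.eval c) := by
    rw [Polynomial.dvd_iff_isRoot]; simp
  have hx := mem_of_ord_sub_pos P h
  have hdecomp : aeval x p = algebraMap K F (p.eval c) + (x - algebraMap K F c) * aeval x q := by
    have := congrArg (aeval x) hq
    simp only [map_sub, map_mul, aeval_X, aeval_C] at this
    rw [← this]; ring
  have hne : algebraMap K F (p.eval c) ≠ 0 := by simpa using hp
  have key := S24.ord_add_eq_of_lt P hne (g := (x - algebraMap K F c) * aeval x q) (by
    by_cases hq0 : aeval x q = 0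
    · left; rw [hq0, mul_zero]
    · right
      rw [S24.ord_algebraMap P hp, P.ord_mul (S24.H94.ne_zero_of_ord_pos P h) hq0]
      have := (S24.mem_iff_ord_nonneg P hq0).mp (aeval_mem_place P hx q)
      omega)
  rw [hdecomp]
  exact ⟨key.1, by rw [key.2, S24.ord_algebraMap P hp]⟩

/-- Order of `((X - c)^m * H)(x)` at a place centered at `x = c`, when `H(c) ≠ 0`. -/
theorem ord_aeval_pow_mul (P : Place K F) {x : F} {c : K} (h : 0 < P.ord (x - algebraMap K F c))
    (m : ℕ) (H : K[X]) (hH : H.eval c ≠ 0) :
    aeval x ((X - C c) ^ m * H) ≠ 0 ∧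
      P.ord (aeval x ((X - C c) ^ m * H)) = m * P.ord (x - algebraMap K F c) := by
  have ht := S24.H94.ne_zero_of_ord_pos P h
  obtain ⟨hH0, hHord⟩ := ord_aeval_unit P h H hH
  have e : aeval x ((X - C c) ^ m * H) = (x - algebraMap K F c) ^ m * aeval x H := by
    simp only [map_mul, map_pow, map_sub, aeval_X, aeval_C]
  rw [e]
  refine ⟨mul_ne_zero (pow_ne_zero m ht) hH0, ?_⟩
  rw [P.ord_mul (pow_ne_zero m ht) hH0, S24.ord_pow, hHord, add_zero]

end Fermat.Agent.S18.H50
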