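/-
S18 / wave 4 (helper50): (B1) the branch data of `F_N / ℚ̄(j)` from the landed S24 closure:
`e = 1` off `{0, 1728}`, `e ∣ 3` over `0`, `e ∣ 2` over `1728`.
-/
import Fermat.Agent.S18.H50.Generic
import Fermat.Agent.S24.ModGlobal
import Fermat.Agent.S24.Fiber
import Fermat.Agent.S24.Newton

set_option autoImplicit false

open AlgebraicCurve Fermat.Agent.S24
open scoped MatrixGroups

noncomputable section

namespace Fermat.Agent.S18.H50

theorem minimalPeriod_toPerm_dvd {G X : Type*} [Group G] [MulAction G X] (g : G) (n : ℕ)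
    (x : X) (h : g ^ n • x = x) : Function.minimalPeriod (MulAction.toPerm g : X → X) x ∣ n := by
  apply Function.IsPeriodicPt.minimalPeriod_dvd
  show (⇑(MulAction.toPerm g : Equiv.Perm X))^[n] x = x
  have : ∀ k : ℕ, (⇑(MulAction.toPerm g : Equiv.Perm X))^[k] x = g ^ k • x := by
    intro k
    induction k with
    | zero => simp
    | succ k ih => rw [Function.iterate_succ_apply', ih, MulAction.toPerm_apply, ← mul_smul,
        ← pow_succ']
  rw [this, h]

/-- **(B1)** Branch data of the function field of `X₀(N)` over the `j`-line. -/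
theorem branchJ_jgen (N : ℕ) [NeZero N] : BranchJ Kbar (jgen N) := by
  classical
  haveI : Fintype (XX N) := Fintype.ofFinite _
  obtain ⟨G, hfin, -⟩ := exists_modularGlobalData N
  have hR := G.frac
  have key : ∀ (P : Place Kbar (FF N)) (c : Kbar),
      0 < P.ord (jgen N - algebraMap Kbar (FF N) c) →
      ∃ x : XX N, P.ord (jgen N - algebraMap Kbar (FF N) c)
        = (Function.minimalPeriod (centerPerm N c) x : ℤ) := by
    intro P c hv
    obtain ⟨x, hx⟩ := (G.fin c).exists_rel_of_place hR P hv
    refine ⟨x, ?_⟩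
    rw [← hfin c]
    exact (G.fin c).ord_π_eq_minimalPeriod hR P hv hx
  refine ⟨?_, ?_, ?_⟩
  · intro P c hc0 hc1 hv
    obtain ⟨x, hx⟩ := key P c hv
    rw [hx, centerPerm, if_neg hc0, if_neg hc1]
    have : Function.minimalPeriod (⇑(1 : Equiv.Perm (XX N))) x = 1 := by
      rw [Equiv.Perm.coe_one, Function.minimalPeriod_id]
    rw [this]
    rfl
  · intro P hv
    have hv' : 0 < P.ord (jgen N - algebraMap Kbar (FF N) 0) := by simpa using hv
    obtain ⟨x, hx⟩ := key P 0 hv'
    rw [map_zero, sub_zero, centerPerm, if_pos rfl] at hx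
    have hdvd := minimalPeriod_toPerm_dvd (ModularGroup.S * ModularGroup.T) 3 x
      (Fermat.Agent.S20.H46.ST_cube_smul N x)
    rcases (Nat.dvd_prime Nat.prime_three).mp hdvd with h | h
    · left; rw [hx, h]; rfl
    · right; rw [hx, h]; rfl
  · intro P hv
    obtain ⟨x, hx⟩ := key P 1728 hv
    have h1728 : (1728 : Kbar) ≠ 0 := by norm_num
    rw [centerPerm, if_neg h1728, if_pos rfl] at hx
    have hdvd := minimalPeriod_toPerm_dvd ModularGroup.S 2 x
      (Fermat.Agent.S20.H46.S_sq_smul N x)
    rcases (Nat.dvd_prime Nat.prime_two).mp hdvd with h | h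
    · left; rw [hx, h]; rfl
    · right; rw [hx, h]; rfl

end Fermat.Agent.S18.H50
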