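/-
S18 / wave 4 (helper50): (B2) the FRICKE involution of the function field of `X₀(N)` over `ℚ̄`
(`w j_d = j_{N/d}`), from the landed S24 analytic bridge (`Theta_eq_zero_iff`, `Jfun_smul`,
`exists_unique_extension`), and (B3) the transfer of branch data along it.
-/
import Fermat.Agent.S18.H50.BranchJ
import Fermat.Agent.S24.Ker
import Fermat.Agent.S24.Transl
import Fermat.Agent.S24.Bridge
import Fermat.Agent.S24.JFacts

set_option autoImplicit false

open AlgebraicCurve Fermat.Agent.S24 UpperHalfPlane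
open scoped MatrixGroups

noncomputable section

namespace Fermat.Agent.S18.H50

variable (N : ℕ) [NeZero N]

/-- The complementary divisor `N / d`. -/
def fdiv (d : N.divisors) : N.divisors :=
  ⟨N / d, Nat.mem_divisors.mpr ⟨Nat.div_dvd_of_dvd (Nat.dvd_of_mem_divisors d.2), NeZero.ne N⟩⟩

@[simp] theorem coe_fdiv (d : N.divisors) : ((fdiv N d : N.divisors) : ℕ) = N / d := rfl

theorem fdiv_fdiv (d : N.divisors) : fdiv N (fdiv N d) = d :=
  Subtype.ext (Nat.div_div_self (Nat.dvd_of_mem_divisors d.2) (NeZero.ne N))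

theorem fdiv_oneDiv : fdiv N (oneDiv N) = topDiv N := Subtype.ext (Nat.div_one N)

/-- `τ ↦ -1/(Nτ)`. -/
def frickeH (τ : ℍ) : ℍ := ModularGroup.S • levelMul N τ

theorem levelMul_frickeH (d : N.divisors) (τ : ℍ) :
    levelMul (d : ℕ) (frickeH N τ) = ModularGroup.S • levelMul ((fdiv N d : N.divisors) : ℕ) τ := by
  apply UpperHalfPlane.ext
  have h1 : ((ModularGroup.S • levelMul N τ : ℍ) : ℂ) = (-((N : ℂ) * τ))⁻¹ := by
    rw [modular_S_smul]; rfl
  have h2 : ((ModularGroup.S • levelMul ((fdiv N d : N.divisors) : ℕ) τ : ℍ) : ℂ)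
      = (-(((N / (d : ℕ) : ℕ) : ℂ) * τ))⁻¹ := by
    rw [modular_S_smul]; rfl
  rw [coe_levelMul, frickeH, h1, h2]
  have hd : ((d : ℕ) : ℂ) ≠ 0 := by
    exact_mod_cast (Nat.pos_of_mem_divisors d.2).ne'
  have hN : (N : ℂ) = ((d : ℕ) : ℂ) * ((N / (d : ℕ) : ℕ) : ℂ) := by
    exact_mod_cast (Nat.mul_div_cancel' (Nat.dvd_of_mem_divisors d.2)).symm
  have hτ : (τ : ℂ) ≠ 0 := UpperHalfPlane.ne_zero τ
  have hq : ((N / (d : ℕ) : ℕ) : ℂ) ≠ 0 := by
    intro h0
    rw [h0, mul_zero] at hN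
    exact (Nat.cast_ne_zero.mpr (NeZero.ne N)) hN
  rw [hN]
  field_simp

theorem Jd_frickeH (d : N.divisors) (τ : ℍ) :
    Jd (d : ℕ) (frickeH N τ) = Jd ((fdiv N d : N.divisors) : ℕ) τ := by
  rw [Jd, levelMul_frickeH, Jfun_smul, Jd]

/-- The renaming `X_d ↦ X_{N/d}`. -/
def frickeRen : MvPolynomial (N.divisors) Kbar →ₐ[Kbar] MvPolynomial (N.divisors) Kbar :=
  MvPolynomial.rename (fdiv N)

theorem frickeRen_frickeRen (P : MvPolynomial (N.divisors) Kbar) :
    frickeRen N (frickeRen N P) = P := by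
  rw [frickeRen, MvPolynomial.rename_rename]
  have : fdiv N ∘ fdiv N = id := funext (fdiv_fdiv N)
  rw [this, MvPolynomial.rename_id_apply]

theorem Theta_frickeRen (P : MvPolynomial (N.divisors) Kbar) (τ : ℍ) :
    Theta N (frickeRen N P) τ = Theta N P (frickeH N τ) := by
  induction P using MvPolynomial.induction_on with
  | C a => rw [frickeRen, MvPolynomial.rename_C, Theta_C]
  | add p q hp hq => rw [map_add, map_add, Pi.add_apply, hp, hq, map_add, Pi.add_apply]
  | mul_X p d hp =>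
    rw [map_mul, map_mul, Pi.mul_apply, hp, map_mul, Pi.mul_apply]
    congr 1
    rw [frickeRen, MvPolynomial.rename_X, Theta_X, Theta_X, Jd_frickeH]

theorem evF_frickeRen_eq_zero {P : MvPolynomial (N.divisors) Kbar} (h : evF N P = 0) :
    evF N (frickeRen N P) = 0 := by
  rw [← Theta_eq_zero_iff] at h ⊢
  funext τ
  rw [Theta_frickeRen, h]
  rfl

theorem evF_frickeRen_eq_zero_iff (P : MvPolynomial (N.divisors) Kbar) :
    evF N (frickeRen N P) = 0 ↔ evF N P = 0 :=
  ⟨fun h => by simpa [frickeRen_frickeRen] using evF_frickeRen_eq_zero N h,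
    evF_frickeRen_eq_zero N⟩

theorem exists_fricke : ∃ w : FF N →+* FF N,
    (∀ P, w (evF N P) = evF N (frickeRen N P)) ∧ (∀ f, w (w f) = f) ∧
    (∀ a : Kbar, w (algebraMap Kbar (FF N) a) = algebraMap Kbar (FF N) a) ∧
    ∀ d : N.divisors, w (jF N d) = jF N (fdiv N d) := by
  obtain ⟨w, hw, -⟩ := exists_unique_extension (evF N) (evF_frac N)
    (((evF N : MvPolynomial (N.divisors) Kbar →ₐ[Kbar] FF N) :
        MvPolynomial (N.divisors) Kbar →+* FF N).comp
      ((frickeRen N : MvPolynomial (N.divisors) Kbar →ₐ[Kbar] MvPolynomial (N.divisors) Kbar) :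
        MvPolynomial (N.divisors) Kbar →+* MvPolynomial (N.divisors) Kbar))
    (fun P => evF_frickeRen_eq_zero_iff N P)
  have hw' : ∀ P, w (evF N P) = evF N (frickeRen N P) := fun P => hw P
  refine ⟨w, hw', ?_, ?_, ?_⟩
  · intro f
    obtain ⟨P, Q, -, rfl⟩ := evF_frac N f
    rw [map_div₀, map_div₀, hw', hw', hw', hw', frickeRen_frickeRen, frickeRen_frickeRen]
  · intro a
    have : algebraMap Kbar (FF N) a = evF N (MvPolynomial.C a) := by
      rw [← MvPolynomial.algebraMap_eq, AlgHom.commutes]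
    rw [this, hw', frickeRen, MvPolynomial.rename_C]
  · intro d
    have : ∀ e : N.divisors, jF N e = evF N (MvPolynomial.X e) := fun e => by simp [evF]
    rw [this, this, hw', frickeRen, MvPolynomial.rename_X]

end Fermat.Agent.S18.H50
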