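/-
S18 / wave 4 (helper50): branch points of `F/K(x)` for a level 2 Hauptmodul `x`
(`j * x = (x + 16)^3`): only `x = 0, -64` (and `x = ∞`).
-/
import Fermat.Agent.S18.H50.Generic

set_option autoImplicit false

open AlgebraicCurve Polynomial

noncomputable section

namespace Fermat.Agent.S18.H50

variable {K F : Type*} [Field K] [Field F] [Algebra K F]

/-- Level 2: if `j * x = (x + 16)^3` and `j` has the branch data `BranchJ`, then `x - c` is a
uniformiser at every place over `x = c`, `c ∉ {0, -64}`. -/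
theorem ord_eq_one_of_level_two {j x : F} (hj : BranchJ K j) (h2 : (2 : K) ≠ 0) (h3 : (3 : K) ≠ 0)
    (hx : j * x = (x + 16) ^ 3) (P : Place K F) (c : K) (hc0 : c ≠ 0) (hc : c ≠ -64)
    (h : 0 < P.ord (x - algebraMap K F c)) : P.ord (x - algebraMap K F c) = 1 := by
  obtain ⟨hx0, hxord⟩ : x ≠ 0 ∧ P.ord x = 0 := by
    have := ord_aeval_unit P h X (by simpa using hc0)
    rwa [aeval_X] at this
  have hca : algebraMap K F c ≠ 0 := by simpa using hc0
  have hcaord : P.ord (algebraMap K F c) = 0 := S24.ord_algebraMap P hc0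
  by_cases hc16 : c = -16
  · -- over `j = 0`
    have e : j * x = aeval x ((X - C c) ^ 3 * 1) := by
      rw [hx, hc16]
      simp only [mul_one, map_pow, map_sub, aeval_X, aeval_C, map_neg, map_ofNat]
      ring
    obtain ⟨hne, hord⟩ := ord_aeval_pow_mul P h 3 1 (by simp)
    rw [← e] at hne hord
    have hj0 : j ≠ 0 := left_ne_zero_of_mul hne
    rw [P.ord_mul hj0 hx0, hxord, add_zero] at hord
    have := hj.zero P (by rw [hord]; push_cast; omega)
    push_cast at hord
    omega
  by_cases hc8 : c = 8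
  · -- over `j = 1728`
    have e : (j - algebraMap K F 1728) * x = aeval x ((X - C c) ^ 2 * (X + C 64)) := by
      rw [hc8]
      simp only [map_mul, map_pow, map_sub, map_add, aeval_X, aeval_C, map_ofNat]
      linear_combination hx
    have h72 : (8 : K) + 64 ≠ 0 := by
      have : (8 : K) + 64 = 2 ^ 3 * 3 ^ 2 := by norm_num
      rw [this]
      exact mul_ne_zero (pow_ne_zero _ h2) (pow_ne_zero _ h3)
    obtain ⟨hne, hord⟩ := ord_aeval_pow_mul P h 2 (X + C 64) (by rw [hc8]; simpa using h72)
    rw [← e] at hne hord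
    have hj0 : j - algebraMap K F 1728 ≠ 0 := left_ne_zero_of_mul hne
    rw [P.ord_mul hj0 hx0, hxord, add_zero] at hord
    have := hj.elliptic P (by rw [hord]; push_cast; omega)
    push_cast at hord
    omega
  · -- generic
    have hc16' : c + 16 ≠ 0 := fun h0 => hc16 (by linear_combination h0)
    have hc8' : c - 8 ≠ 0 := sub_ne_zero.mpr hc8
    have hc64' : c + 64 ≠ 0 := fun h0 => hc (by linear_combination h0)
    set c0 : K := (c + 16) ^ 3 / c with hc0def
    have hc0mul : algebraMap K F c0 * algebraMap K F c = (algebraMap K F c + 16) ^ 3 := by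
      rw [← map_mul, hc0def, div_mul_cancel₀ _ hc0]
      simp only [map_pow, map_add, map_ofNat]
    set H : K[X] := C c * ((X + C 16) ^ 2 + (X + C 16) * C (c + 16) + C ((c + 16) ^ 2))
      - C ((c + 16) ^ 3) with hH
    have e : (j - algebraMap K F c0) * x * algebraMap K F c = aeval x ((X - C c) ^ 1 * H) := by
      rw [hH]
      simp only [pow_one, map_mul, map_pow, map_sub, map_add, aeval_X, aeval_C, map_ofNat]
      linear_combination (algebraMap K F c) * hx - x * hc0mul
    have hHc : H.eval c ≠ 0 := by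
      have : H.eval c = 2 * (c + 16) ^ 2 * (c - 8) := by
        rw [hH]
        simp only [eval_sub, eval_mul, eval_add, eval_pow, eval_X, eval_C]
        ring
      rw [this]
      exact mul_ne_zero (mul_ne_zero h2 (pow_ne_zero _ hc16')) hc8'
    obtain ⟨hne, hord⟩ := ord_aeval_pow_mul P h 1 H hHc
    rw [← e] at hne hord
    have hj0 : j - algebraMap K F c0 ≠ 0 := left_ne_zero_of_mul (left_ne_zero_of_mul hne)
    rw [P.ord_mul (mul_ne_zero hj0 hx0) hca, P.ord_mul hj0 hx0, hxord, hcaord, add_zero,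
      add_zero] at hord
    have hc00 : c0 ≠ 0 := div_ne_zero (pow_ne_zero _ hc16') hc0
    have hc01728 : c0 ≠ 1728 := by
      intro h0
      rw [hc0def, div_eq_iff hc0] at h0
      have : (c - 8) ^ 2 * (c + 64) = 0 := by linear_combination h0
      exact mul_ne_zero (pow_ne_zero _ hc8') hc64' this
    have := hj.gen P c0 hc00 hc01728 (by rw [hord]; push_cast; omega)
    push_cast at hord
    omega

/-- Level 2, chart at infinity: `x⁻¹ - c` is a uniformiser at every place over `x⁻¹ = c`,
`c ∉ {0, -1/64}`. -/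
theorem ord_inv_eq_one_of_level_two {j x : F} (hj : BranchJ K j) (h2 : (2 : K) ≠ 0)
    (h3 : (3 : K) ≠ 0) (hx : j * x = (x + 16) ^ 3) (P : Place K F) (c : K) (hc0 : c ≠ 0)
    (hc : c ≠ (-64)⁻¹) (h : 0 < P.ord (x⁻¹ - algebraMap K F c)) :
    P.ord (x⁻¹ - algebraMap K F c) = 1 := by
  obtain ⟨hxi0, hxiord⟩ : x⁻¹ ≠ 0 ∧ P.ord x⁻¹ = 0 := by
    have := ord_aeval_unit P h X (by simpa using hc0)
    rwa [aeval_X] at this
  have hx0 : x ≠ 0 := fun h0 => hxi0 (by rw [h0, inv_zero])
  have hca : algebraMap K F c ≠ 0 := by simpa using hc0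
  have key : x - algebraMap K F c⁻¹ = -(algebraMap K F c)⁻¹ * x * (x⁻¹ - algebraMap K F c) := by
    rw [map_inv₀]
    field_simp
    ring
  have hne := S24.H94.ne_zero_of_ord_pos P h
  have hxord : P.ord x = 0 := by
    have := P.ord_inv x
    omega
  have hord : P.ord (x - algebraMap K F c⁻¹) = P.ord (x⁻¹ - algebraMap K F c) := by
    rw [key, P.ord_mul (mul_ne_zero (neg_ne_zero.mpr (inv_ne_zero hca)) hx0) hne,
      P.ord_mul (neg_ne_zero.mpr (inv_ne_zero hca)) hx0, S24.ord_neg, P.ord_inv,
      S24.ord_algebraMap P hc0, hxord]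
    ring
  rw [← hord]
  refine ord_eq_one_of_level_two hj h2 h3 hx P c⁻¹ (inv_ne_zero hc0) ?_ (by rw [hord]; exact h)
  intro h0
  exact hc (by rw [← h0, inv_inv])

end Fermat.Agent.S18.H50
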