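/-
S18 / wave 4 (helper50): (B3) transfer of branch data along an involution (Fricke), and the
packaging of the branch data into the exact shape of `Setup.branch` / `Setup.branch_inv`
of the skeleton `Fermat/Agent/S18/H74/Setup.lean`.
-/
import Fermat.Agent.S18.H50.Fricke
import Fermat.Agent.S18.H50.Level2
import Fermat.Agent.S18.H50.Level3

set_option autoImplicit false

open AlgebraicCurve Fermat.Agent.S24

noncomputable section

namespace Fermat.Agent.S18.H50

section Generic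

variable {K F : Type*} [Field K] [Field F] [Algebra K F]

/-- Transport of a place along an involution of `F/K`. -/
theorem exists_place_comap (w : F →+* F) (hw : ∀ f, w (w f) = f)
    (hwK : ∀ a : K, w (algebraMap K F a) = algebraMap K F a) (P : Place K F) :
    ∃ P' : Place K F, ∀ f : F, P'.ord f = P.ord (w f) := by
  have hne : ∀ {f : F}, f ≠ 0 → w f ≠ 0 := fun hf => (map_ne_zero w).mpr hf
  have ho : S24.H52.IsAddVal (fun f => P.ord (w f)) :=
    { map_one := by simp
      map_mul := fun hf hg => by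
        show P.ord (w (_ * _)) = _
        rw [map_mul]; exact P.ord_mul (hne hf) (hne hg)
      map_add := fun hf hg hfg => by
        show _ ≤ P.ord (w (_ + _))
        rw [map_add]
        exact S24.ord_add_ge P (hne hf) (hne hg) (by rw [← map_add]; exact hne hfg) }
  have hK : ∀ a : K, algebraMap K F a ≠ 0 → 0 ≤ P.ord (w (algebraMap K F a)) := by
    intro a ha
    rw [hwK, S24.ord_algebraMap P (by simpa using ha)]
  obtain ⟨t, ht⟩ := S24.exists_ord_eq_one P
  have ht0 : t ≠ 0 := by rintro rfl; simp at ht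
  have hneg : ∃ f : F, f ≠ 0 ∧ P.ord (w f) < 0 :=
    ⟨w t⁻¹, hne (inv_ne_zero ht0), by rw [hw, P.ord_inv, ht]; norm_num⟩
  have hone : ∃ f : F, f ≠ 0 ∧ P.ord (w f) = 1 := ⟨w t, hne ht0, by rw [hw, ht]⟩
  refine ⟨ho.place hK hneg, fun f => ?_⟩
  by_cases hf : f = 0
  · subst hf; simp
  · exact ho.place_ord_eq hK hneg hone f hf

/-- Branch data are transported by an involution of `F/K`. -/
theorem BranchJ.map {j : F} (hj : BranchJ K j) (w : F →+* F) (hw : ∀ f, w (w f) = f)
    (hwK : ∀ a : K, w (algebraMap K F a) = algebraMap K F a) : BranchJ K (w j) := by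
  refine ⟨?_, ?_, ?_⟩
  · intro P c hc0 hc1 h
    obtain ⟨P', hP'⟩ := exists_place_comap w hw hwK P
    have e : P.ord (w j - algebraMap K F c) = P'.ord (j - algebraMap K F c) := by
      rw [hP', map_sub, hwK]
    rw [e] at h ⊢
    exact hj.gen P' c hc0 hc1 h
  · intro P h
    obtain ⟨P', hP'⟩ := exists_place_comap w hw hwK P
    rw [← hP'] at h ⊢
    exact hj.zero P' h
  · intro P h
    obtain ⟨P', hP'⟩ := exists_place_comap w hw hwK P
    have e : P.ord (w j - algebraMap K F 1728) = P'.ord (j - algebraMap K F 1728) := by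
      rw [hP', map_sub, hwK]
    rw [e] at h ⊢
    exact hj.elliptic P' h

/-- Passing to the chart at infinity: `ord (x - c⁻¹) = ord (x⁻¹ - c)` over `x⁻¹ = c ≠ 0`. -/
theorem ord_sub_inv_eq (P : Place K F) {x : F} {c : K} (hc0 : c ≠ 0)
    (h : 0 < P.ord (x⁻¹ - algebraMap K F c)) :
    P.ord (x - algebraMap K F c⁻¹) = P.ord (x⁻¹ - algebraMap K F c) := by
  obtain ⟨hxi0, hxiord⟩ : x⁻¹ ≠ 0 ∧ P.ord x⁻¹ = 0 := by
    have := ord_aeval_unit P h Polynomial.X (by simpa using hc0)
    rwa [Polynomial.aeval_X] at this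
  have hx0 : x ≠ 0 := fun h0 => hxi0 (by rw [h0, inv_zero])
  have hca : algebraMap K F c ≠ 0 := by simpa using hc0
  have key : x - algebraMap K F c⁻¹ = -(algebraMap K F c)⁻¹ * x * (x⁻¹ - algebraMap K F c) := by
    rw [map_inv₀]
    field_simp
    ring
  have hne := S24.H94.ne_zero_of_ord_pos P h
  have hxord : P.ord x = 0 := by
    have := P.ord_inv x
    omega
  rw [key, P.ord_mul (mul_ne_zero (neg_ne_zero.mpr (inv_ne_zero hca)) hx0) hne,
    P.ord_mul (neg_ne_zero.mpr (inv_ne_zero hca)) hx0, S24.ord_neg, P.ord_inv,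
    S24.ord_algebraMap P hc0, hxord]
  ring

variable (A : ValuationSubring K)

theorem ofNat_mem_valuationSubring (n : ℕ) [n.AtLeastTwo] : (OfNat.ofNat n : K) ∈ A := by
  have : (OfNat.ofNat n : K) = ((n : ℕ) : K) := (Nat.cast_ofNat).symm
  rw [this]
  exact natCast_mem A n

/-- **`Setup.branch` for `x = j`** (`ℓ ≥ 5`): branch set `{0, 1728}`. -/
theorem branch_of_branchJ {j : F} (hj : BranchJ K j) (h2 : (2 : K)⁻¹ ∈ A) (h3 : (3 : K)⁻¹ ∈ A) :
    ∃ S : Finset K, (∀ c ∈ S, c ∈ A) ∧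
      (∀ c ∈ S, ∀ c' ∈ S, c ≠ c' → (c - c')⁻¹ ∈ A) ∧
      ∀ (P : Place K F) (c : K), c ∉ S →
        0 < P.ord (j - algebraMap K F c) → P.ord (j - algebraMap K F c) = 1 := by
  classical
  have h1728 : (1728 : K)⁻¹ ∈ A := by
    have : (1728 : K)⁻¹ = (2 : K)⁻¹ ^ 6 * (3 : K)⁻¹ ^ 3 := by
      rw [inv_pow, inv_pow, ← mul_inv]; norm_num
    rw [this]
    exact A.mul_mem _ _ (A.pow_mem h2 6) (A.pow_mem h3 3)
  refine ⟨{0, 1728}, ?_, ?_, ?_⟩
  · intro c hc
    simp only [Finset.mem_insert, Finset.mem_singleton] at hc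
    rcases hc with rfl | rfl
    · exact A.zero_mem
    · exact ofNat_mem_valuationSubring A 1728
  · intro c hc c' hc' hne
    simp only [Finset.mem_insert, Finset.mem_singleton] at hc hc'
    rcases hc with rfl | rfl <;> rcases hc' with rfl | rfl
    · exact absurd rfl hne
    · rw [zero_sub, inv_neg]; exact A.neg_mem _ h1728
    · rw [sub_zero]; exact h1728
    · exact absurd rfl hne
  · intro P c hc h
    simp only [Finset.mem_insert, Finset.mem_singleton, not_or] at hc
    exact hj.gen P c hc.1 hc.2 h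

/-- **`Setup.branch_inv` for `x = j`** (`ℓ ≥ 5`): branch set `{0, 1/1728}`. -/
theorem branch_inv_of_branchJ {j : F} (hj : BranchJ K j) (h2 : (2 : K) ≠ 0) (h3 : (3 : K) ≠ 0)
    (h2A : (2 : K)⁻¹ ∈ A) (h3A : (3 : K)⁻¹ ∈ A) :
    ∃ S : Finset K, (∀ c ∈ S, c ∈ A) ∧
      (∀ c ∈ S, ∀ c' ∈ S, c ≠ c' → (c - c')⁻¹ ∈ A) ∧
      ∀ (P : Place K F) (c : K), c ∉ S →
        0 < P.ord (j⁻¹ - algebraMap K F c) → P.ord (j⁻¹ - algebraMap K F c) = 1 := by
  classical
  have h1728 : (1728 : K)⁻¹ ∈ A := by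
    have : (1728 : K)⁻¹ = (2 : K)⁻¹ ^ 6 * (3 : K)⁻¹ ^ 3 := by
      rw [inv_pow, inv_pow, ← mul_inv]; norm_num
    rw [this]
    exact A.mul_mem _ _ (A.pow_mem h2A 6) (A.pow_mem h3A 3)
  have h1728ne : (1728 : K) ≠ 0 := by
    have : (1728 : K) = 2 ^ 6 * 3 ^ 3 := by norm_num
    rw [this]
    exact mul_ne_zero (pow_ne_zero _ h2) (pow_ne_zero _ h3)
  refine ⟨{0, (1728 : K)⁻¹}, ?_, ?_, ?_⟩
  · intro c hc
    simp only [Finset.mem_insert, Finset.mem_singleton] at hc
    rcases hc with rfl | rfl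
    · exact A.zero_mem
    · exact h1728
  · intro c hc c' hc' hne
    simp only [Finset.mem_insert, Finset.mem_singleton] at hc hc'
    rcases hc with rfl | rfl <;> rcases hc' with rfl | rfl
    · exact absurd rfl hne
    · rw [zero_sub, inv_neg, inv_inv]; exact A.neg_mem _ (ofNat_mem_valuationSubring A 1728)
    · rw [sub_zero, inv_inv]; exact ofNat_mem_valuationSubring A 1728
    · exact absurd rfl hne
  · intro P c hc h
    simp only [Finset.mem_insert, Finset.mem_singleton, not_or] at hc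
    have e := ord_sub_inv_eq P hc.1 h
    rw [← e]
    refine hj.gen P c⁻¹ (inv_ne_zero hc.1) ?_ (by rw [e]; exact h)
    intro h0
    exact hc.2 (by rw [← h0, inv_inv])

/-- **`Setup.branch` for a level 2 Hauptmodul** (`ℓ = 3`): branch set `{0, -64}`. -/
theorem branch_of_level_two {j x : F} (hj : BranchJ K j) (h2 : (2 : K) ≠ 0) (h3 : (3 : K) ≠ 0)
    (h2A : (2 : K)⁻¹ ∈ A) (hx : j * x = (x + 16) ^ 3) :
    ∃ S : Finset K, (∀ c ∈ S, c ∈ A) ∧
      (∀ c ∈ S, ∀ c' ∈ S, c ≠ c' → (c - c')⁻¹ ∈ A) ∧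
      ∀ (P : Place K F) (c : K), c ∉ S →
        0 < P.ord (x - algebraMap K F c) → P.ord (x - algebraMap K F c) = 1 := by
  classical
  have h64 : (64 : K)⁻¹ ∈ A := by
    have : (64 : K)⁻¹ = (2 : K)⁻¹ ^ 6 := by rw [inv_pow]; norm_num
    rw [this]
    exact A.pow_mem h2A 6
  refine ⟨{0, -64}, ?_, ?_, ?_⟩
  · intro c hc
    simp only [Finset.mem_insert, Finset.mem_singleton] at hc
    rcases hc with rfl | rfl
    · exact A.zero_mem
    · exact A.neg_mem _ (ofNat_mem_valuationSubring A 64)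
  · intro c hc c' hc' hne
    simp only [Finset.mem_insert, Finset.mem_singleton] at hc hc'
    rcases hc with rfl | rfl <;> rcases hc' with rfl | rfl
    · exact absurd rfl hne
    · rw [zero_sub, neg_neg]; exact h64
    · rw [sub_zero, inv_neg]; exact A.neg_mem _ h64
    · exact absurd rfl hne
  · intro P c hc h
    simp only [Finset.mem_insert, Finset.mem_singleton, not_or] at hc
    exact ord_eq_one_of_level_two hj h2 h3 hx P c hc.1 hc.2 h

/-- **`Setup.branch_inv` for a level 2 Hauptmodul** (`ℓ = 3`): branch set `{0, -1/64}`. -/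
theorem branch_inv_of_level_two {j x : F} (hj : BranchJ K j) (h2 : (2 : K) ≠ 0)
    (h3 : (3 : K) ≠ 0) (h2A : (2 : K)⁻¹ ∈ A) (hx : j * x = (x + 16) ^ 3) :
    ∃ S : Finset K, (∀ c ∈ S, c ∈ A) ∧
      (∀ c ∈ S, ∀ c' ∈ S, c ≠ c' → (c - c')⁻¹ ∈ A) ∧
      ∀ (P : Place K F) (c : K), c ∉ S →
        0 < P.ord (x⁻¹ - algebraMap K F c) → P.ord (x⁻¹ - algebraMap K F c) = 1 := by
  classical
  have h64 : (64 : K)⁻¹ ∈ A := by
    have : (64 : K)⁻¹ = (2 : K)⁻¹ ^ 6 := by rw [inv_pow]; norm_num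
    rw [this]
    exact A.pow_mem h2A 6
  refine ⟨{0, (-64 : K)⁻¹}, ?_, ?_, ?_⟩
  · intro c hc
    simp only [Finset.mem_insert, Finset.mem_singleton] at hc
    rcases hc with rfl | rfl
    · exact A.zero_mem
    · rw [inv_neg]; exact A.neg_mem _ h64
  · intro c hc c' hc' hne
    simp only [Finset.mem_insert, Finset.mem_singleton] at hc hc'
    rcases hc with rfl | rfl <;> rcases hc' with rfl | rfl
    · exact absurd rfl hne
    · rw [zero_sub, inv_neg, inv_inv, neg_neg]; exact ofNat_mem_valuationSubring A 64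
    · rw [sub_zero, inv_inv]; exact A.neg_mem _ (ofNat_mem_valuationSubring A 64)
    · exact absurd rfl hne
  · intro P c hc h
    simp only [Finset.mem_insert, Finset.mem_singleton, not_or] at hc
    exact ord_inv_eq_one_of_level_two hj h2 h3 hx P c hc.1 hc.2 h

/-- **`Setup.branch` for a level 3 Hauptmodul** (`ℓ = 2`): branch set `{0, -27}`. -/
theorem branch_of_level_three {j x : F} (hj : BranchJ K j) (h2 : (2 : K) ≠ 0) (h3 : (3 : K) ≠ 0)
    (h3A : (3 : K)⁻¹ ∈ A) (hx : j * x = (x + 27) * (x + 3) ^ 3) :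
    ∃ S : Finset K, (∀ c ∈ S, c ∈ A) ∧
      (∀ c ∈ S, ∀ c' ∈ S, c ≠ c' → (c - c')⁻¹ ∈ A) ∧
      ∀ (P : Place K F) (c : K), c ∉ S →
        0 < P.ord (x - algebraMap K F c) → P.ord (x - algebraMap K F c) = 1 := by
  classical
  have h27 : (27 : K)⁻¹ ∈ A := by
    have : (27 : K)⁻¹ = (3 : K)⁻¹ ^ 3 := by rw [inv_pow]; norm_num
    rw [this]
    exact A.pow_mem h3A 3
  refine ⟨{0, -27}, ?_, ?_, ?_⟩
  · intro c hc
    simp only [Finset.mem_insert, Finset.mem_singleton] at hc
    rcases hc with rfl | rfl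
    · exact A.zero_mem
    · exact A.neg_mem _ (ofNat_mem_valuationSubring A 27)
  · intro c hc c' hc' hne
    simp only [Finset.mem_insert, Finset.mem_singleton] at hc hc'
    rcases hc with rfl | rfl <;> rcases hc' with rfl | rfl
    · exact absurd rfl hne
    · rw [zero_sub, neg_neg]; exact h27
    · rw [sub_zero, inv_neg]; exact A.neg_mem _ h27
    · exact absurd rfl hne
  · intro P c hc h
    simp only [Finset.mem_insert, Finset.mem_singleton, not_or] at hc
    exact ord_eq_one_of_level_three hj h2 h3 hx P c hc.1 hc.2 h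

/-- **`Setup.branch_inv` for a level 3 Hauptmodul** (`ℓ = 2`): branch set `{0, -1/27}`. -/
theorem branch_inv_of_level_three {j x : F} (hj : BranchJ K j) (h2 : (2 : K) ≠ 0)
    (h3 : (3 : K) ≠ 0) (h3A : (3 : K)⁻¹ ∈ A) (hx : j * x = (x + 27) * (x + 3) ^ 3) :
    ∃ S : Finset K, (∀ c ∈ S, c ∈ A) ∧
      (∀ c ∈ S, ∀ c' ∈ S, c ≠ c' → (c - c')⁻¹ ∈ A) ∧
      ∀ (P : Place K F) (c : K), c ∉ S →
        0 < P.ord (x⁻¹ - algebraMap K F c) → P.ord (x⁻¹ - algebraMap K F c) = 1 := by
  classical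
  have h27 : (27 : K)⁻¹ ∈ A := by
    have : (27 : K)⁻¹ = (3 : K)⁻¹ ^ 3 := by rw [inv_pow]; norm_num
    rw [this]
    exact A.pow_mem h3A 3
  refine ⟨{0, (-27 : K)⁻¹}, ?_, ?_, ?_⟩
  · intro c hc
    simp only [Finset.mem_insert, Finset.mem_singleton] at hc
    rcases hc with rfl | rfl
    · exact A.zero_mem
    · rw [inv_neg]; exact A.neg_mem _ h27
  · intro c hc c' hc' hne
    simp only [Finset.mem_insert, Finset.mem_singleton] at hc hc'
    rcases hc with rfl | rfl <;> rcases hc' with rfl | rfl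
    · exact absurd rfl hne
    · rw [zero_sub, inv_neg, inv_inv, neg_neg]; exact ofNat_mem_valuationSubring A 27
    · rw [sub_zero, inv_inv]; exact A.neg_mem _ (ofNat_mem_valuationSubring A 27)
    · exact absurd rfl hne
  · intro P c hc h
    simp only [Finset.mem_insert, Finset.mem_singleton, not_or] at hc
    exact ord_inv_eq_one_of_level_three hj h2 h3 hx P c hc.1 hc.2 h

end Generic

/-- **(B3)** Branch data of the function field of `X₀(N)` over the `j_N`-line
(`j_N = j(q^N)`, the base function of the landed S28 degree results). -/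
theorem branchJ_jtop (N : ℕ) [NeZero N] : BranchJ Kbar (jF N (topDiv N)) := by
  obtain ⟨w, -, hww, hwK, hwj⟩ := exists_fricke N
  have h := (branchJ_jgen N).map w hww hwK
  rwa [jgen, hwj, fdiv_oneDiv] at h

end Fermat.Agent.S18.H50
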