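/-
S18 / core 2 (helper50): horizontal primes of the chart have height one.

* `poly_eq_of_le`: over a discrete valuation ring `A₀` with uniformiser `ϖ`, a nonzero prime of
  `A₀[X]` contained in a prime not containing `ϖ` is equal to it (`K₀[X]` is a PID).
* `chart_eq_of_le`: the same for the chart (the integral closure of `A₀[x]` in `F₀`), by
  incomparability.
-/
import Fermat.Agent.S18.H19.Core2Defs

set_option autoImplicit false

open Polynomial

noncomputable section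

namespace Fermat.Agent.S18.H50

open Fermat.Agent.S18.H19

section Poly

variable {A₀ : Type*} [CommRing A₀] [IsDomain A₀] [IsDiscreteValuationRing A₀]

attribute [local instance] Polynomial.algebra in
/-- A nonzero prime of `A₀[X]` below a prime which does not contain the uniformiser is equal to
it. -/
theorem poly_eq_of_le (ϖ : A₀) (hϖ : Irreducible ϖ) (P Q : Ideal A₀[X]) (hP : P.IsPrime)
    (hQ : Q.IsPrime) (hP0 : P ≠ ⊥) (hPQ : P ≤ Q) (hϖQ : C ϖ ∉ Q) : P = Q := by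
  let K := FractionRing A₀
  let M : Submonoid A₀[X] := (nonZeroDivisors A₀).map (C : A₀ →+* A₀[X])
  have : IsLocalization M K[X] := Polynomial.isLocalization (nonZeroDivisors A₀) K
  have hQd : Disjoint (M : Set A₀[X]) (Q : Set A₀[X]) := by
    rw [Set.disjoint_left]
    rintro _ ⟨a, ha, rfl⟩ haQ
    obtain ⟨n, u, rfl⟩ := IsDiscreteValuationRing.eq_unit_mul_pow_irreducible
      (nonZeroDivisors.ne_zero ha) hϖ
    have h1 : (C (u : A₀) : A₀[X]) * C ϖ ^ n ∈ Q := by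
      have : (C ((u : A₀) * ϖ ^ n) : A₀[X]) ∈ Q := haQ
      rwa [C_mul, C_pow] at this
    rcases hQ.mem_or_mem h1 with h2 | h2
    · exact hQ.ne_top (Ideal.eq_top_of_isUnit_mem _ h2 (u.isUnit.map C))
    · exact hϖQ (hQ.mem_of_pow_mem n h2)
  have hPd : Disjoint (M : Set A₀[X]) (P : Set A₀[X]) := hQd.mono_right hPQ
  let e := IsLocalization.orderIsoOfPrime M K[X]
  have hPQ' : e.symm ⟨P, hP, hPd⟩ ≤ e.symm ⟨Q, hQ, hQd⟩ := e.symm.monotone hPQ
  have hinj : Function.Injective (algebraMap A₀[X] K[X]) :=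
    IsLocalization.injective K[X] (M := M) (by
      rintro _ ⟨a, ha, rfl⟩
      exact mem_nonZeroDivisors_of_ne_zero (by simpa using nonZeroDivisors.ne_zero ha))
  have hP'0 : (e.symm ⟨P, hP, hPd⟩).1 ≠ ⊥ := by
    intro h
    apply hP0
    have h2 : (e (e.symm ⟨P, hP, hPd⟩)).1 = P := by rw [OrderIso.apply_symm_apply]
    rw [← h2]
    change ((e.symm ⟨P, hP, hPd⟩).1).comap (algebraMap A₀[X] K[X]) = ⊥
    rw [h]
    exact Ideal.comap_bot_of_injective _ hinj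
  have hmax : (e.symm ⟨P, hP, hPd⟩).1.IsMaximal := (e.symm ⟨P, hP, hPd⟩).2.isMaximal hP'0
  have heq : e.symm ⟨P, hP, hPd⟩ = e.symm ⟨Q, hQ, hQd⟩ :=
    Subtype.ext (hmax.eq_of_le (e.symm ⟨Q, hQ, hQd⟩).2.ne_top hPQ')
  have := e.symm.injective heq
  exact congrArg (fun z => z.1) this

end Poly

section Chart

variable {A₀ : Type*} [CommRing A₀] [IsDomain A₀] [IsDiscreteValuationRing A₀]
  {F₀ : Type*} [Field F₀] [Algebra A₀ F₀]

/-- The structure map `A₀[X] → chart`, `X ↦ x`. -/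
def chartHom (x : F₀) : A₀[X] →+* ↥(chart A₀ x) :=
  (aeval (⟨x, self_mem_chart A₀ x⟩ : ↥(chart A₀ x)) : A₀[X] →ₐ[A₀] ↥(chart A₀ x)).toRingHom

omit [IsDomain A₀] [IsDiscreteValuationRing A₀] in
theorem chartHom_apply (x : F₀) (g : A₀[X]) :
    chartHom x g = aeval (⟨x, self_mem_chart A₀ x⟩ : ↥(chart A₀ x)) g := rfl

omit [IsDomain A₀] [IsDiscreteValuationRing A₀] in
theorem coe_chartHom (x : F₀) (g : A₀[X]) : ((chartHom x g : ↥(chart A₀ x)) : F₀) = aeval x g := by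
  rw [chartHom_apply]
  exact Polynomial.aeval_subalgebra_coe g (chart A₀ x) ⟨x, self_mem_chart A₀ x⟩

omit [IsDomain A₀] [IsDiscreteValuationRing A₀] in
/-- Every element of the chart is integral over `A₀[X]`. -/
theorem chartHom_isIntegralElem (x : F₀) (c : ↥(chart A₀ x)) :
    ∃ p : A₀[X][X], p.Monic ∧ p.eval₂ (chartHom x) c = 0 := by
  obtain ⟨p, hp, hpc⟩ := (mem_chart_iff A₀).mp c.2
  let ψ : A₀[X] →+* ↥(Algebra.adjoin A₀ ({x} : Set F₀)) :=
    (aeval (⟨x, Algebra.subset_adjoin rfl⟩ : ↥(Algebra.adjoin A₀ ({x} : Set F₀))) :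
      A₀[X] →ₐ[A₀] ↥(Algebra.adjoin A₀ ({x} : Set F₀))).toRingHom
  have hψ : ∀ g : A₀[X], ((ψ g : ↥(Algebra.adjoin A₀ ({x} : Set F₀))) : F₀) = aeval x g :=
    fun g => Polynomial.aeval_subalgebra_coe g (Algebra.adjoin A₀ ({x} : Set F₀))
      ⟨x, Algebra.subset_adjoin rfl⟩
  have hsurj : Function.Surjective ψ := by
    rintro ⟨y, hy⟩
    rw [Algebra.adjoin_singleton_eq_range_aeval] at hy
    obtain ⟨g, rfl⟩ := hy
    exact ⟨g, Subtype.ext (hψ g)⟩
  obtain ⟨q, hq, -, hqm⟩ := Polynomial.lifts_and_natDegree_eq_and_monic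
    ((Polynomial.mem_lifts p).mpr (Polynomial.map_surjective ψ hsurj p)) hp
  refine ⟨q, hqm, Subtype.ext ?_⟩
  have h1 : (((q.eval₂ (chartHom x) c : ↥(chart A₀ x)) : ↥(chart A₀ x)) : F₀) =
      q.eval₂ ((chart A₀ x).val.toRingHom.comp (chartHom x)) (c : F₀) :=
    Polynomial.hom_eval₂ q (chartHom x) (chart A₀ x).val.toRingHom c
  have h2 : ((chart A₀ x).val.toRingHom.comp (chartHom x)) =
      (algebraMap ↥(Algebra.adjoin A₀ ({x} : Set F₀)) F₀).comp ψ := by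
    ext g
    · simp [chartHom, ψ]
    · simp [chartHom, ψ]
  rw [h1, h2, ← Polynomial.eval₂_map, hq]
  exact hpc

/-- **Horizontal primes of the chart have height one**: a nonzero prime of the chart below a
prime which does not contain the uniformiser is equal to it. -/
theorem chart_eq_of_le (ϖ : A₀) (hϖ : Irreducible ϖ) (x : F₀)
    (𝔭 𝔮 : Ideal ↥(chart A₀ x)) (h𝔭 : 𝔭.IsPrime) (h𝔮 : 𝔮.IsPrime) (h0 : 𝔭 ≠ ⊥) (hle : 𝔭 ≤ 𝔮)
    (hϖ𝔮 : algebraMap A₀ ↥(chart A₀ x) ϖ ∉ 𝔮) : 𝔭 = 𝔮 := by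
  by_contra hne
  have hlt : 𝔭 < 𝔮 := lt_of_le_of_ne hle hne
  obtain ⟨r, hr𝔮, hr𝔭⟩ := Set.exists_of_ssubset hlt
  obtain ⟨pr, hprm, hpr0⟩ := chartHom_isIntegralElem x r
  have hP : (𝔭.comap (chartHom x)).IsPrime := Ideal.comap_isPrime _ _
  have hQ : (𝔮.comap (chartHom x)).IsPrime := Ideal.comap_isPrime _ _
  have hlt' : 𝔭.comap (chartHom x) < 𝔮.comap (chartHom x) := by
    have : Nontrivial (A₀[X] ⧸ 𝔭.comap (chartHom x)) :=
      Ideal.Quotient.nontrivial_iff.mpr hP.ne_top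
    exact Ideal.comap_lt_comap_of_root_mem_sdiff hle ⟨hr𝔮, hr𝔭⟩
      (map_monic_ne_zero hprm) (by rw [hpr0]; exact 𝔭.zero_mem)
  obtain ⟨r0, hr0, hr0ne⟩ := Submodule.exists_mem_ne_zero_of_ne_bot h0
  obtain ⟨p0, hp0m, hp00⟩ := chartHom_isIntegralElem x r0
  have hP0 : 𝔭.comap (chartHom x) ≠ ⊥ :=
    Ideal.comap_ne_bot_of_root_mem hr0ne hr0 hp0m.ne_zero hp00
  have hϖQ : C ϖ ∉ 𝔮.comap (chartHom x) := by
    intro h
    apply hϖ𝔮
    have h1 : chartHom x (C ϖ) ∈ 𝔮 := h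
    rwa [chartHom_apply, aeval_C] at h1
  exact hlt'.ne (poly_eq_of_le ϖ hϖ _ _ hP hQ hP0 hlt'.le hϖQ)

end Chart

end Fermat.Agent.S18.H50
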