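/-
S18 / core 2 (helper50): leaf K2-CH-C `chart_ram` — the horizontal primes of the chart which do
not lie over the branch points are unramified over `A₀[x]` (their localisation is a discrete
valuation ring of `F₀/K₀` to which `DSetup.branch` applies).

`chart_ram_of` is the statement with the three generic facts on the chart (Noetherian, integrally
closed, fraction field `F₀`) as instance hypotheses.
-/
import Fermat.Agent.S18.H50.LocVal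
import Fermat.Agent.S18.H50.ChartHeight

set_option autoImplicit false

open Polynomial

noncomputable section

namespace Fermat.Agent.S18.H50

open Fermat.Agent.S18.H19

variable {A₀ : Type*} [CommRing A₀] [IsDomain A₀] [IsDiscreteValuationRing A₀]
  {F₀ : Type*} [Field F₀] [Algebra A₀ F₀]

/-- `chart_ram` from the three generic facts on the chart. -/
theorem chart_ram_of (ϖ : A₀) (hϖ : Irreducible ϖ) (O₀ : ValuationSubring F₀) (x : F₀)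
    (hS : DSetup A₀ O₀ x) [IsNoetherianRing ↥(chart A₀ x)] [IsIntegrallyClosed ↥(chart A₀ x)]
    [IsFractionRing ↥(chart A₀ x) F₀] :
    ∃ S : Finset A₀, (∀ a ∈ S, ∀ b ∈ S, a ≠ b → IsUnit (a - b)) ∧
      ∀ 𝔮 : Ideal ↥(chart A₀ x), 𝔮.IsPrime → 𝔮 ≠ ⊥ →
        algebraMap A₀ ↥(chart A₀ x) ϖ ∉ 𝔮 →
        (∀ a ∈ S, (⟨x, self_mem_chart A₀ x⟩ - algebraMap A₀ ↥(chart A₀ x) a) ∉ 𝔮) →
        ∃ g : A₀[X], Polynomial.aeval (⟨x, self_mem_chart A₀ x⟩ : ↥(chart A₀ x)) g ∈ 𝔮 ∧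
          ∀ t ∈ 𝔮, ∃ s ∉ 𝔮, ∃ c : ↥(chart A₀ x),
            s * t = Polynomial.aeval (⟨x, self_mem_chart A₀ x⟩ : ↥(chart A₀ x)) g * c := by
  obtain ⟨S, hSu, hbr⟩ := hS.branch
  refine ⟨S, hSu, fun 𝔮 h𝔮 h𝔮0 hϖ𝔮 hS𝔮 => ?_⟩
  have := h𝔮
  obtain ⟨V, hV, hVmem⟩ := exists_valuationSubring_of_prime (F := F₀) 𝔮 h𝔮0
    (fun 𝔭 h𝔭 h𝔭0 hle => chart_eq_of_le ϖ hϖ x 𝔭 𝔮 h𝔭 h𝔮 h𝔭0 hle hϖ𝔮)
  have hone : (1 : ↥(chart A₀ x)) ∉ 𝔮 := (Ideal.ne_top_iff_one 𝔮).mp h𝔮.ne_top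
  have hCV : ∀ c : ↥(chart A₀ x), (c : F₀) ∈ V := fun c =>
    (hVmem _).mpr ⟨c, 1, hone, by simp⟩
  have hinvV : ∀ s : ↥(chart A₀ x), s ∉ 𝔮 → (s : F₀)⁻¹ ∈ V := fun s hs =>
    (hVmem _).mpr ⟨1, s, hs, by simp⟩
  have hnonunit : ∀ t : ↥(chart A₀ x), t ∈ 𝔮 → t ≠ 0 → (t : F₀)⁻¹ ∉ V := by
    intro t ht ht0 hmem
    obtain ⟨c, s, hs, h⟩ := (hVmem _).mp hmem
    apply hs
    have ht0' : (t : F₀) ≠ 0 := fun h0 => ht0 (Subtype.ext h0)
    have hs0 : (s : F₀) ≠ 0 := fun h0 => hs (by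
      have : s = 0 := Subtype.ext h0
      rw [this]
      exact 𝔮.zero_mem)
    have hst : s = c * t := by
      apply Subtype.ext
      have h' : (t : F₀)⁻¹ = (c : F₀) * (s : F₀)⁻¹ := h
      push_cast
      field_simp at h'
      rw [h', mul_comm]
    rw [hst]
    exact 𝔮.mul_mem_left c ht
  have h1 : ∀ a : A₀, a ≠ 0 → (algebraMap A₀ F₀ a)⁻¹ ∈ V := by
    intro a ha
    have hna : algebraMap A₀ ↥(chart A₀ x) a ∉ 𝔮 := by
      obtain ⟨n, u, rfl⟩ := IsDiscreteValuationRing.eq_unit_mul_pow_irreducible ha hϖ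
      intro h
      rw [map_mul, map_pow] at h
      rcases h𝔮.mem_or_mem h with h2 | h2
      · exact h𝔮.ne_top (Ideal.eq_top_of_isUnit_mem _ h2 (u.isUnit.map _))
      · exact hϖ𝔮 (h𝔮.mem_of_pow_mem n h2)
    exact hinvV _ hna
  have h2 : x ∈ V := hCV ⟨x, self_mem_chart A₀ x⟩
  have h3 : ∀ a ∈ S, (x - algebraMap A₀ F₀ a)⁻¹ ∈ V := fun a ha => hinvV _ (hS𝔮 a ha)
  obtain ⟨g, -, hg2, hg3⟩ := hbr V h1 hV h2 h3
  have hcoe : ((aeval (⟨x, self_mem_chart A₀ x⟩ : ↥(chart A₀ x)) g : ↥(chart A₀ x)) : F₀) =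
      aeval x g := Polynomial.aeval_subalgebra_coe g (chart A₀ x) ⟨x, self_mem_chart A₀ x⟩
  have hg0 : aeval x g ≠ 0 := by
    intro h0
    apply hg2
    rw [h0, inv_zero]
    exact V.zero_mem
  refine ⟨g, ?_, ?_⟩
  · by_contra hg𝔮
    apply hg2
    have := hinvV _ hg𝔮
    rwa [hcoe] at this
  · intro t ht
    by_cases ht0 : t = 0
    · exact ⟨1, hone, 0, by simp [ht0]⟩
    obtain ⟨c, s, hs, h⟩ := (hVmem _).mp (hg3 (t : F₀) (hCV t) (hnonunit t ht ht0))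
    refine ⟨s, hs, c, Subtype.ext ?_⟩
    have hs0 : (s : F₀) ≠ 0 := fun h0 => hs (by
      have : s = 0 := Subtype.ext h0
      rw [this]
      exact 𝔮.zero_mem)
    have h' : (t : F₀) / aeval x g = (c : F₀) * (s : F₀)⁻¹ := h
    push_cast
    field_simp at h'
    rw [mul_comm, h']

end Fermat.Agent.S18.H50
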