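/-
S18 / core 2 (helper50): leaf K2-CH-C `chart_ram` VERBATIM (skeleton v2.2 of helper19's
`Core2.lean`), from `chart_ram_of` and the landed generic chart facts of helper95 (CH-D).
-/
import Fermat.Agent.S18.H50.ChartRam
import Fermat.Agent.S18.H95.ChartD

set_option autoImplicit false

open Polynomial

noncomputable section

namespace Fermat.Agent.S18.H50

open Fermat.Agent.S18.H19

/-- The chart is a Noetherian ring. -/
theorem chart_isNoetherianRing {A₀ : Type*} [CommRing A₀] [IsDomain A₀]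
    [IsDiscreteValuationRing A₀] [CharZero A₀]
    {F₀ : Type*} [Field F₀] [Algebra A₀ F₀] [FaithfulSMul A₀ F₀]
    (O₀ : ValuationSubring F₀) (x : F₀) (hS : DSetup A₀ O₀ x) :
    IsNoetherianRing ↥(chart A₀ x) := by
  let _ := H95.chartAlg (A₀ := A₀) x
  have hfin : Module.Finite A₀[X] ↥(chart A₀ x) := H95.chart_moduleFinite O₀ x hS
  have hN : IsNoetherian A₀[X] ↥(chart A₀ x) := isNoetherian_of_isNoetherianRing_of_finite _ _
  exact isNoetherian_of_tower A₀[X] hN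

/-- **CH-C** (horizontal primes off the branch points are unramified over `A₀[x]`). -/
theorem chart_ram {A₀ : Type*} [CommRing A₀] [IsDomain A₀] [IsDiscreteValuationRing A₀]
    [CharZero A₀] (ϖ : A₀) (hϖ : Irreducible ϖ)
    {F₀ : Type*} [Field F₀] [Algebra A₀ F₀] [FaithfulSMul A₀ F₀]
    (O₀ : ValuationSubring F₀) (x : F₀) (hS : DSetup A₀ O₀ x) :
    ∃ S : Finset A₀, (∀ a ∈ S, ∀ b ∈ S, a ≠ b → IsUnit (a - b)) ∧
      ∀ 𝔮 : Ideal ↥(chart A₀ x), 𝔮.IsPrime → 𝔮 ≠ ⊥ →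
        algebraMap A₀ ↥(chart A₀ x) ϖ ∉ 𝔮 →
        (∀ a ∈ S, (⟨x, self_mem_chart A₀ x⟩ - algebraMap A₀ ↥(chart A₀ x) a) ∉ 𝔮) →
        ∃ g : A₀[X], Polynomial.aeval (⟨x, self_mem_chart A₀ x⟩ : ↥(chart A₀ x)) g ∈ 𝔮 ∧
          ∀ t ∈ 𝔮, ∃ s ∉ 𝔮, ∃ c : ↥(chart A₀ x),
            s * t = Polynomial.aeval (⟨x, self_mem_chart A₀ x⟩ : ↥(chart A₀ x)) g * c := by
  have h1 : IsNoetherianRing ↥(chart A₀ x) := chart_isNoetherianRing O₀ x hS
  have h2 : IsIntegrallyClosed ↥(chart A₀ x) := H95.chart_isIntegrallyClosed' x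
  have h3 : IsFractionRing ↥(chart A₀ x) F₀ := H95.chart_fractionRing O₀ x hS
  exact chart_ram_of ϖ hϖ O₀ x hS

end Fermat.Agent.S18.H50
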