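/-
S18 / wave 4 (helper50): the branch leaves of the `exists_setup` sub-skeleton of helper28
(`H28/SetupSkel.lean`, `H28/SetupAsm.lean`: `branch_top`, `branchOK_top`, `branchOK_two`,
`branchOK_three`) in their exact shapes, from `Fermat/Agent/S18/H50/Transfer.lean`.
-/
import Fermat.Agent.S18.H50.Transfer
import Fermat.Agent.S18.H74.TopDefs

set_option autoImplicit false

open AlgebraicCurve IntermediateField ModularCurve Fermat.Agent.S24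

noncomputable section

namespace Fermat.Agent.S18.H50

open Fermat.Agent.S18.H74

/-- `j(q^d)` as an element of `F_{N'}`, for `d ∣ N'` (same term as `H28.jFN`). -/
def jFN (N' d : ℕ) [NeZero d] (hd : d ∣ N') : FN N' :=
  ⟨coeffEmb Kb (qExpand ℚ d jq), coeffEmb_mem_laurentBaseChange Kb (jqd_mem_full N' hd)⟩

/-- The top function `j(q^{N'})` of `F_{N'}` (same term as `H28.jtop`). -/
abbrev jtop (N' : ℕ) [NeZero N'] : FN N' := jFN N' N' dvd_rfl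

theorem jtop_eq (N' : ℕ) [NeZero N'] : jtop N' = jF N' (topDiv N') := rfl

/-- Branch data for the top function. -/
theorem branchJ_jtop' (N' : ℕ) [NeZero N'] : BranchJ Kb (jtop N') := branchJ_jtop N'

/-- **B3** of `H28/SetupSkel.lean`, verbatim. -/
theorem branch_top (N' : ℕ) [NeZero N'] (P : Place Kb (FN N')) (c : Kb)
    (hpos : 0 < P.ord (jtop N' - algebraMap Kb (FN N') c)) :
    (c ≠ 0 → c ≠ 1728 → P.ord (jtop N' - algebraMap Kb (FN N') c) = 1) ∧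
    (c = 0 → P.ord (jtop N' - algebraMap Kb (FN N') c) ∣ 3) ∧
    (c = 1728 → P.ord (jtop N' - algebraMap Kb (FN N') c) ∣ 2) := by
  have hj := branchJ_jtop' N'
  refine ⟨fun h0 h1 => hj.gen P c h0 h1 hpos, ?_, ?_⟩
  · rintro rfl
    rw [map_zero, sub_zero] at hpos ⊢
    rcases hj.zero P hpos with h | h <;> rw [h] <;> norm_num
  · rintro rfl
    rcases hj.elliptic P hpos with h | h <;> rw [h] <;> norm_num

section Pack

variable (A : ValuationSubring Kb)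

theorem two_ne_zero_Kb : (2 : Kb) ≠ 0 := two_ne_zero
theorem three_ne_zero_Kb : (3 : Kb) ≠ 0 := three_ne_zero

/-- **B3'** of `H28/SetupAsm.lean` (`BranchOK A (jtop N')`, unfolded), `ℓ ≥ 5`. -/
theorem branchOK_top (N' : ℕ) [NeZero N'] (hu : ((1728 : ℕ) : Kb)⁻¹ ∈ A) :
    (∃ S : Finset Kb, (∀ c ∈ S, c ∈ A) ∧ (∀ c ∈ S, ∀ c' ∈ S, c ≠ c' → (c - c')⁻¹ ∈ A) ∧
      ∀ (P : Place Kb (FN N')) (c : Kb), c ∉ S →
        0 < P.ord (jtop N' - algebraMap Kb (FN N') c) →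
          P.ord (jtop N' - algebraMap Kb (FN N') c) = 1) ∧
    (∃ S : Finset Kb, (∀ c ∈ S, c ∈ A) ∧ (∀ c ∈ S, ∀ c' ∈ S, c ≠ c' → (c - c')⁻¹ ∈ A) ∧
      ∀ (P : Place Kb (FN N')) (c : Kb), c ∉ S →
        0 < P.ord ((jtop N')⁻¹ - algebraMap Kb (FN N') c) →
          P.ord ((jtop N')⁻¹ - algebraMap Kb (FN N') c) = 1) := by
  have h2A : (2 : Kb)⁻¹ ∈ A := by
    have : (2 : Kb)⁻¹ = ((864 : ℕ) : Kb) * ((1728 : ℕ) : Kb)⁻¹ := by norm_num
    rw [this]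
    exact A.mul_mem _ _ (natCast_mem A 864) hu
  have h3A : (3 : Kb)⁻¹ ∈ A := by
    have : (3 : Kb)⁻¹ = ((576 : ℕ) : Kb) * ((1728 : ℕ) : Kb)⁻¹ := by norm_num
    rw [this]
    exact A.mul_mem _ _ (natCast_mem A 576) hu
  exact ⟨branch_of_branchJ A (branchJ_jtop' N') h2A h3A,
    branch_inv_of_branchJ A (branchJ_jtop' N') two_ne_zero_Kb three_ne_zero_Kb h2A h3A⟩

/-- **B4e** of `H28/SetupAsm.lean` (`BranchOK A x`, unfolded), level two (`ℓ = 3`). -/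
theorem branchOK_two (N' : ℕ) [NeZero N'] (hu : ((64 : ℕ) : Kb)⁻¹ ∈ A) (x : FN N')
    (hrel : jtop N' * x = (x + 16) ^ 3) :
    (∃ S : Finset Kb, (∀ c ∈ S, c ∈ A) ∧ (∀ c ∈ S, ∀ c' ∈ S, c ≠ c' → (c - c')⁻¹ ∈ A) ∧
      ∀ (P : Place Kb (FN N')) (c : Kb), c ∉ S →
        0 < P.ord (x - algebraMap Kb (FN N') c) → P.ord (x - algebraMap Kb (FN N') c) = 1) ∧
    (∃ S : Finset Kb, (∀ c ∈ S, c ∈ A) ∧ (∀ c ∈ S, ∀ c' ∈ S, c ≠ c' → (c - c')⁻¹ ∈ A) ∧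
      ∀ (P : Place Kb (FN N')) (c : Kb), c ∉ S →
        0 < P.ord (x⁻¹ - algebraMap Kb (FN N') c) →
          P.ord (x⁻¹ - algebraMap Kb (FN N') c) = 1) := by
  have h2A : (2 : Kb)⁻¹ ∈ A := by
    have : (2 : Kb)⁻¹ = ((32 : ℕ) : Kb) * ((64 : ℕ) : Kb)⁻¹ := by norm_num
    rw [this]
    exact A.mul_mem _ _ (natCast_mem A 32) hu
  exact ⟨branch_of_level_two A (branchJ_jtop' N') two_ne_zero_Kb three_ne_zero_Kb h2A hrel,
    branch_inv_of_level_two A (branchJ_jtop' N') two_ne_zero_Kb three_ne_zero_Kb h2A hrel⟩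

/-- **B5e** of `H28/SetupAsm.lean` (`BranchOK A x`, unfolded), level three (`ℓ = 2`). -/
theorem branchOK_three (N' : ℕ) [NeZero N'] (hu : ((27 : ℕ) : Kb)⁻¹ ∈ A) (x : FN N')
    (hrel : jtop N' * x = (x + 27) * (x + 3) ^ 3) :
    (∃ S : Finset Kb, (∀ c ∈ S, c ∈ A) ∧ (∀ c ∈ S, ∀ c' ∈ S, c ≠ c' → (c - c')⁻¹ ∈ A) ∧
      ∀ (P : Place Kb (FN N')) (c : Kb), c ∉ S →
        0 < P.ord (x - algebraMap Kb (FN N') c) → P.ord (x - algebraMap Kb (FN N') c) = 1) ∧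
    (∃ S : Finset Kb, (∀ c ∈ S, c ∈ A) ∧ (∀ c ∈ S, ∀ c' ∈ S, c ≠ c' → (c - c')⁻¹ ∈ A) ∧
      ∀ (P : Place Kb (FN N')) (c : Kb), c ∉ S →
        0 < P.ord (x⁻¹ - algebraMap Kb (FN N') c) →
          P.ord (x⁻¹ - algebraMap Kb (FN N') c) = 1) := by
  have h3A : (3 : Kb)⁻¹ ∈ A := by
    have : (3 : Kb)⁻¹ = ((9 : ℕ) : Kb) * ((27 : ℕ) : Kb)⁻¹ := by norm_num
    rw [this]
    exact A.mul_mem _ _ (natCast_mem A 9) hu
  exact ⟨branch_of_level_three A (branchJ_jtop' N') two_ne_zero_Kb three_ne_zero_Kb h3A hrel,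
    branch_inv_of_level_three A (branchJ_jtop' N') two_ne_zero_Kb three_ne_zero_Kb h3A hrel⟩

end Pack

end Fermat.Agent.S18.H50
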