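/-
S18 / core 2 (helper50): the localisation of a Noetherian integrally closed domain at a prime of
height one, as a discrete valuation subring of the fraction field.  Mathlib only.
-/
import Mathlib

set_option autoImplicit false

namespace Fermat.Agent.S18.H50

open IsLocalRing

section LocVal

variable {C : Type*} [CommRing C] [IsDomain C] {F : Type*} [Field F] [Algebra C F]
  [IsFractionRing C F]

/-- The localisation of a Noetherian integrally closed domain `C` at a nonzero prime `q` which
contains no other nonzero prime is a discrete valuation ring; here it is realised as a valuation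
subring of the fraction field, with the explicit description of its elements. -/
theorem exists_valuationSubring_of_prime [IsNoetherianRing C] [IsIntegrallyClosed C]
    (q : Ideal C) [hq : q.IsPrime] (hq0 : q ≠ ⊥)
    (hht : ∀ p : Ideal C, p.IsPrime → p ≠ ⊥ → p ≤ q → p = q) :
    ∃ V : ValuationSubring F, IsDiscreteValuationRing V ∧
      ∀ y : F, y ∈ V ↔ ∃ c s : C, s ∉ q ∧ y = algebraMap C F c * (algebraMap C F s)⁻¹ := by
  have hS : q.primeCompl ≤ nonZeroDivisors C := q.primeCompl_le_nonZeroDivisors
  let W : Subalgebra C F := Localization.subalgebra.ofField F q.primeCompl hS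
  have hWmem : ∀ y : F, y ∈ W ↔ ∃ c s : C, s ∉ q ∧ y = algebraMap C F c * (algebraMap C F s)⁻¹ := by
    intro y
    constructor
    · rintro ⟨a, s, hs, rfl⟩
      exact ⟨a, s, hs, rfl⟩
    · rintro ⟨a, s, hs, rfl⟩
      exact ⟨a, s, hs, rfl⟩
  have : IsLocalization.AtPrime W q := Localization.subalgebra.isLocalization_ofField F _ hS
  have : IsLocalRing W := IsLocalization.AtPrime.isLocalRing W q
  have : IsNoetherianRing W := IsLocalization.isNoetherianRing q.primeCompl W inferInstance
  have : IsIntegrallyClosed W := isIntegrallyClosed_of_isLocalization W q.primeCompl hS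
  have hmax : maximalIdeal W = q.map (algebraMap C W) :=
    (IsLocalization.AtPrime.map_eq_maximalIdeal q W).symm
  have hcomap : (maximalIdeal W).comap (algebraMap C W) = q :=
    IsLocalization.AtPrime.under_maximalIdeal W q
  have hnf : ¬ IsField W := by
    intro hf
    have h1 : maximalIdeal W = ⊥ := isField_iff_maximalIdeal_eq.mp hf
    apply hq0
    rw [← hcomap, h1]
    exact Ideal.comap_bot_of_injective _ (FaithfulSMul.algebraMap_injective C W)
  have hmne : maximalIdeal W ≠ ⊥ := fun h => hnf (isField_iff_maximalIdeal_eq.mpr h)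
  have huniq : ∃! P : Ideal W, P ≠ ⊥ ∧ P.IsPrime := by
    refine ⟨maximalIdeal W, ⟨hmne, inferInstance⟩, ?_⟩
    rintro P ⟨hP0, hP⟩
    have hPc : (P.comap (algebraMap C W)).IsPrime := Ideal.comap_isPrime _ _
    have hmc : (P.comap (algebraMap C W)).map (algebraMap C W) = P :=
      IsLocalization.map_under q.primeCompl W P
    have hPc0 : P.comap (algebraMap C W) ≠ ⊥ := by
      intro h
      apply hP0
      rw [← hmc, h, Ideal.map_bot]
    have hPle : P.comap (algebraMap C W) ≤ q := by
      rw [← hcomap]
      exact Ideal.comap_mono (le_maximalIdeal hP.ne_top)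
    have := hht _ hPc hPc0 hPle
    rw [← hmc, this, hmax]
  have hdvr : IsDiscreteValuationRing W := by
    have h03 := (IsDiscreteValuationRing.TFAE W hnf).out 0 3
    exact h03.mpr ⟨inferInstance, huniq⟩
  have hval : ∀ y : F, y ∈ W ∨ y⁻¹ ∈ W := by
    intro y
    rcases ValuationRing.isInteger_or_isInteger W y with ⟨w, hw⟩ | ⟨w, hw⟩
    · left
      rw [← hw]
      exact w.2
    · right
      rw [← hw]
      exact w.2
  let V : ValuationSubring F := { W.toSubring with mem_or_inv_mem' := hval }
  refine ⟨V, ?_, fun y => hWmem y⟩
  let e : W ≃+* V := RingEquiv.refl _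
  exact IsDiscreteValuationRing.RingEquivClass.isDiscreteValuationRing e

end LocVal

end Fermat.Agent.S18.H50
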